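import Mathlib

/-!
# A3 / LEVEL (helper319), part 2: group theory

`Γ₀(N)` is generated by `Γ₀(N p)` together with `T = [[1,1],[0,1]]` and `U = [[1,0],[N,1]]`
(`p` prime); more precisely, an additive character `c : Γ₀(N) → A` vanishing on `Γ₀(N p)`, with
values in a group `A` without `p`-torsion, vanishes identically.
-/

set_option autoImplicit false

noncomputable section

open CongruenceSubgroup Matrix
open scoped MatrixGroups

namespace Fermat.Agent.A3.H319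

/-- The lower unipotent matrix `[[1,0],[N m,1]]`. -/
def lowerU (N : ℕ) (m : ℤ) : SL(2, ℤ) :=
  ⟨!![1, 0; (N : ℤ) * m, 1], by simp [Matrix.det_fin_two]⟩

@[simp] theorem lowerU_apply_zero_zero (N : ℕ) (m : ℤ) : (lowerU N m) 0 0 = 1 := rfl
@[simp] theorem lowerU_apply_zero_one (N : ℕ) (m : ℤ) : (lowerU N m) 0 1 = 0 := rfl
@[simp] theorem lowerU_apply_one_zero (N : ℕ) (m : ℤ) : (lowerU N m) 1 0 = (N : ℤ) * m := rfl
@[simp] theorem lowerU_apply_one_one (N : ℕ) (m : ℤ) : (lowerU N m) 1 1 = 1 := rfl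

theorem mem_Gamma0_iff_dvd {M : ℕ} {γ : SL(2, ℤ)} : γ ∈ Gamma0 M ↔ (M : ℤ) ∣ γ 1 0 := by
  rw [Gamma0_mem]
  exact ZMod.intCast_zmod_eq_zero_iff_dvd _ _

theorem lowerU_mem (N : ℕ) (m : ℤ) : lowerU N m ∈ Gamma0 N := by
  rw [mem_Gamma0_iff_dvd, lowerU_apply_one_zero]
  exact dvd_mul_right _ _

theorem lowerU_mul_mem (N p : ℕ) (m : ℤ) : lowerU N ((p : ℤ) * m) ∈ Gamma0 (N * p) := by
  rw [mem_Gamma0_iff_dvd, lowerU_apply_one_zero]
  refine ⟨m, ?_⟩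
  push_cast
  ring

theorem lowerU_add (N : ℕ) (m m' : ℤ) : lowerU N (m + m') = lowerU N m * lowerU N m' := by
  apply Subtype.ext
  rw [Matrix.SpecialLinearGroup.coe_mul]
  ext i j
  fin_cases i <;> fin_cases j <;>
    simp [lowerU, Matrix.mul_apply, Fin.sum_univ_two, mul_add]

theorem T_mem_Gamma0 (M : ℕ) : ModularGroup.T ∈ Gamma0 M := by
  rw [mem_Gamma0_iff_dvd]
  simp [ModularGroup.T]

theorem Gamma0_mul_le (N p : ℕ) : Gamma0 (N * p) ≤ Gamma0 N := by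
  intro γ hγ
  rw [mem_Gamma0_iff_dvd] at hγ ⊢
  refine dvd_trans ?_ hγ
  exact ⟨(p : ℤ), by push_cast; ring⟩

theorem mul_lowerU_apply_one_zero (N : ℕ) (γ : SL(2, ℤ)) (m : ℤ) :
    (γ * lowerU N m) 1 0 = γ 1 0 + γ 1 1 * ((N : ℤ) * m) := by
  rw [Matrix.SpecialLinearGroup.coe_mul, Matrix.mul_apply, Fin.sum_univ_two]
  simp

theorem mul_T_apply_one_zero (γ : SL(2, ℤ)) : (γ * ModularGroup.T) 1 0 = γ 1 0 := by
  rw [Matrix.SpecialLinearGroup.coe_mul, Matrix.mul_apply, Fin.sum_univ_two]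
  simp [ModularGroup.T]

theorem mul_T_apply_one_one (γ : SL(2, ℤ)) : (γ * ModularGroup.T) 1 1 = γ 1 0 + γ 1 1 := by
  rw [Matrix.SpecialLinearGroup.coe_mul, Matrix.mul_apply, Fin.sum_univ_two]
  simp [ModularGroup.T]

/-- **Group theory of LEVEL.**  An additive character of `Γ₀(N)` with values in a group
without `p`-torsion (`p` prime) which vanishes on `Γ₀(N p)` is zero. -/
theorem eq_zero_of_forall_mem_Gamma0_mul {N p : ℕ} (hp : p.Prime) {A : Type*} [AddCommGroup A]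
    (hA : ∀ a : A, p • a = 0 → a = 0) (c : ↥(Gamma0 N) → A)
    (hadd : ∀ γ γ' : ↥(Gamma0 N), c (γ * γ') = c γ + c γ')
    (hres : ∀ γ : ↥(Gamma0 N), (γ : SL(2, ℤ)) ∈ Gamma0 (N * p) → c γ = 0)
    (γ : ↥(Gamma0 N)) : c γ = 0 := by
  -- the elements `U_m` and `T` of `Γ₀(N)`
  let u : ℤ → ↥(Gamma0 N) := fun m => ⟨lowerU N m, lowerU_mem N m⟩
  let t : ↥(Gamma0 N) := ⟨ModularGroup.T, T_mem_Gamma0 N⟩
  have hu_add : ∀ m m' : ℤ, u (m + m') = u m * u m' := fun m m' =>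
    Subtype.ext (lowerU_add N m m')
  -- `c` vanishes on `T`
  have hcT : c t = 0 := hres t (T_mem_Gamma0 (N * p))
  -- `c` vanishes on the `U_m`
  have hcU : ∀ m : ℤ, c (u m) = 0 := by
    intro m
    let φ : ℤ →+ A := AddMonoidHom.mk' (fun m => c (u m)) (fun m m' => by
      show c (u (m + m')) = c (u m) + c (u m')
      rw [hu_add, hadd])
    have h1 : φ ((p : ℤ) * m) = 0 := hres (u ((p : ℤ) * m)) (lowerU_mul_mem N p m)
    have h2 : φ ((p : ℤ) * m) = p • φ m := by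
      rw [← nsmul_eq_mul, map_nsmul]
    exact hA (φ m) (by rw [← h2, h1])
  -- the case `p ∤ d`
  have key : ∀ γ : ↥(Gamma0 N), ¬ (p : ℤ) ∣ (γ : SL(2, ℤ)) 1 1 → c γ = 0 := by
    intro γ hd
    obtain ⟨c', hc'⟩ := mem_Gamma0_iff_dvd.mp γ.2
    have hcop : IsCoprime ((γ : SL(2, ℤ)) 1 1) (p : ℤ) := by
      have hpp : Prime (p : ℤ) := Nat.prime_iff_prime_int.mp hp
      exact (IsCoprime.symm ((Prime.coprime_iff_not_dvd hpp).mpr hd))
    obtain ⟨x, y, hxy⟩ := hcop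
    -- `m := - c' * x`
    have hmem : ((γ * u (-c' * x) : ↥(Gamma0 N)) : SL(2, ℤ)) ∈ Gamma0 (N * p) := by
      rw [mem_Gamma0_iff_dvd]
      show ((N * p : ℕ) : ℤ) ∣ ((γ : SL(2, ℤ)) * lowerU N (-c' * x)) 1 0
      rw [mul_lowerU_apply_one_zero, hc']
      refine ⟨c' * y, ?_⟩
      push_cast
      linear_combination (-(N : ℤ) * c') * hxy
    have h1 := hres _ hmem
    rw [hadd, hcU, add_zero] at h1
    exact h1
  by_cases hd : (p : ℤ) ∣ (γ : SL(2, ℤ)) 1 1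
  · -- then `p ∤ c`, use `γ T`
    have hdet : (γ : SL(2, ℤ)) 0 0 * (γ : SL(2, ℤ)) 1 1 - (γ : SL(2, ℤ)) 0 1 * (γ : SL(2, ℤ)) 1 0 = 1 := by
      have := (γ : SL(2, ℤ)).2
      rw [Matrix.det_fin_two] at this
      exact this
    have hc : ¬ (p : ℤ) ∣ (γ : SL(2, ℤ)) 1 0 := by
      intro hc
      have h1 : (p : ℤ) ∣ 1 := by
        rw [← hdet]
        exact dvd_sub (dvd_mul_of_dvd_right hd _) (dvd_mul_of_dvd_right hc _)
      have hpp : Prime (p : ℤ) := Nat.prime_iff_prime_int.mp hp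
      exact hpp.not_dvd_one h1
    have h2 : ¬ (p : ℤ) ∣ ((γ * t : ↥(Gamma0 N)) : SL(2, ℤ)) 1 1 := by
      show ¬ (p : ℤ) ∣ ((γ : SL(2, ℤ)) * ModularGroup.T) 1 1
      rw [mul_T_apply_one_one]
      intro h
      exact hc ((dvd_add_left hd).mp h)
    have h3 := key (γ * t) h2
    rw [hadd, hcT, add_zero] at h3
    exact h3
  · exact key γ hd

end Fermat.Agent.A3.H319
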