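import Fermat.Agent.A3.H319.LevelPull
import Fermat.Agent.A3.H319.LevelGroup
import Fermat.Agent.S19.Spec
import Fermat.Agent.S29.M4b.Defs
import Fermat.Agent.S29.H812.HeckeInputs
import Fermat.Agent.S29.H571.HeckeGalois
import Fermat.Agent.S29.H718.KInj
import Fermat.Agent.S29.M4b.H89.K4Uniq
import Fermat.Agent.S30.H810.Onto
import Fermat.Agent.S30.Fin.Count

/-!
# A3 / LEVEL (helper319): `levelStatement : S19.LevelStatement`

The torsion `J₀(N)[ℓ^k]` embeds Galois-equivariantly into `J₀(N p)[ℓ^k]` for every prime `p ≠ ℓ`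
(we need `p = 2` for `ℓ = 3` and `p = 3` for `ℓ = 2`): the map is the pull-back (conorm) along
the Prelude degeneracy map `heckeAlphaBar N p` (inclusion of function fields).

Injectivity uses the Kummer dictionary on main instead of ramification theory:
`x` is the Kummer class of an additive character `c` of `Γ₀(N)` (ONTO, `S30.H810`), its pull-back
is the Kummer class of `c|Γ₀(N p)` (`isKum_levelPull`), which vanishes if the pull-back is `0`
(`S29.H718.isKum_zero_right`); a character of `Γ₀(N)` with values in `ℤ/ℓ^k` vanishing on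
`Γ₀(N p)` is `0` (`eq_zero_of_forall_mem_Gamma0_mul`), hence `x = 0` (`S29.M4b.H89.isKum_unique`).
-/

set_option autoImplicit false
set_option linter.style.haveILetI false

noncomputable section

namespace Fermat.Agent.A3.H319

open ModularCurve AlgebraicCurve CongruenceSubgroup UpperHalfPlane
open Fermat.Agent.S24 Fermat.Agent.S29 Fermat.Agent.S29.M4b
open scoped MatrixGroups Manifold

variable (N p : ℕ) [NeZero N] [NeZero p]

/-- The degeneracy map `α : FF N → FF (N p)` (inclusion) is integral. -/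
theorem levelAlpha_integral : (heckeAlphaBar Kbar N p).toRingHom.IsIntegral :=
  H812.isIntegral_of_finiteAlong (H812.finiteAlong_heckeAlphaBar N p)

theorem levelAlpha_fundId :
    haveI : HasPrincipalDivisors Kbar (FF (N * p)) :=
      Fermat.Agent.Lib.RR.H864.hasPrincipalDivisors_modularFunctionFieldBar (N * p)
    FundamentalIdentityAlong Kbar (heckeAlphaBar Kbar N p) (levelAlpha_integral N p) := by
  haveI : HasPrincipalDivisors Kbar (FF (N * p)) :=
    Fermat.Agent.Lib.RR.H864.hasPrincipalDivisors_modularFunctionFieldBar (N * p)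
  exact H812.fundamentalIdentityAlong (H812.exists_coord_modular N) (heckeAlphaBar Kbar N p)
    (H812.finiteAlong_heckeAlphaBar N p) (levelAlpha_integral N p)

/-- The pull-back (conorm) `J₀(N)(ℚ̄) → J₀(N p)(ℚ̄)`. -/
def levelPull : JZero N →+ JZero (N * p) :=
  haveI : HasPrincipalDivisors Kbar (FF (N * p)) :=
    Fermat.Agent.Lib.RR.H864.hasPrincipalDivisors_modularFunctionFieldBar (N * p)
  pic0Pull (heckeAlphaBar Kbar N p) (levelAlpha_integral N p) (levelAlpha_fundId N p)

/-- The pull-back is Galois-equivariant. -/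
theorem levelPull_smul (σ : Kbar ≃ₐ[ℚ] Kbar) (x : JZero N) :
    levelPull N p (σ • x) = σ • levelPull N p x := by
  haveI : HasPrincipalDivisors Kbar (FF (N * p)) :=
    Fermat.Agent.Lib.RR.H864.hasPrincipalDivisors_modularFunctionFieldBar (N * p)
  rw [galois_smul_pic0_def, galois_smul_pic0_def]
  exact pic0Pull_smul (heckeAlphaBar Kbar N p) (levelAlpha_integral N p) (levelAlpha_fundId N p)
    (H571.intertwines_heckeAlphaBar N p σ) x

/-- Restriction of a function on `Γ₀(N)` to `Γ₀(N p)`. -/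
def resG0 {A : Type*} (c : G0 N → A) : G0 (N * p) → A :=
  fun γ => c ⟨(γ : SL(2, ℤ)), Gamma0_mul_le N p γ.2⟩

omit [NeZero N] [NeZero p] in
theorem goodRing_mul_le : H648.goodRing N ≤ H648.goodRing (N * p) := by
  rintro f ⟨h1, h2, h3⟩
  exact ⟨h1, fun γ hγ τ => h2 γ (Gamma0_mul_le N p hγ) τ, h3⟩

/-- **Kummer classes pull back**: if `x` is the Kummer class of `c` at level `N`, then the
pull-back of `x` is the Kummer class of `c|Γ₀(N p)` at level `N p`. -/
theorem isKum_levelPull {n : ℕ} {c : G0 N → ZMod n} {x : JZero N} (h : IsKum N n c x) :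
    IsKum (N * p) n (resG0 N p c) (levelPull N p x) := by
  haveI : HasPrincipalDivisors Kbar (FF (N * p)) :=
    Fermat.Agent.Lib.RR.H864.hasPrincipalDivisors_modularFunctionFieldBar (N * p)
  obtain ⟨f, t, U, ht, hx, hU, hR⟩ := h
  refine ⟨heckeAlphaBar Kbar N p f, heckeAlphaBar Kbar N p t, U,
    (map_ne_zero (heckeAlphaBar Kbar N p)).mpr ht,
    isKummerClass_pic0Pull (heckeAlphaBar Kbar N p) (levelAlpha_integral N p)
      (levelAlpha_fundId N p) hx,
    ⟨hU.mdiff, hU.ne_zero, fun γ τ => hU.hasChar ⟨(γ : SL(2, ℤ)), Gamma0_mul_le N p γ.2⟩ τ,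
      goodRing_mul_le N p hU.pow_mem⟩,
    goodRing_mul_le N p hR.1, ?_⟩
  rw [hR.2, ← map_pow, ← map_mul, coe_heckeAlphaBar]

/-- `ℤ/n` has no `p`-torsion when `p` is prime to `n`. -/
theorem zmod_eq_zero_of_nsmul {n p : ℕ} (h : Nat.Coprime p n) (a : ZMod n) (ha : p • a = 0) :
    a = 0 := by
  rw [nsmul_eq_mul] at ha
  have hu : IsUnit ((p : ℕ) : ZMod n) := (ZMod.unitOfCoprime p h).isUnit
  exact (hu.mul_right_eq_zero).mp ha

/-- **Injectivity of the pull-back on torsion prime to `p`.** -/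
theorem eq_zero_of_levelPull_eq_zero (hp : p.Prime) (n : ℕ) [NeZero n] (hnp : Nat.Coprime p n)
    {x : JZero N} (hx : (n : ℤ) • x = 0) (h0 : levelPull N p x = 0) : x = 0 := by
  obtain ⟨c, hc⟩ := Fermat.Agent.S30.H810.exists_isKum_of_torsion N n hx
  have hadd := fun γ γ' => Fermat.Agent.S30.Fin.fin_isKum_map_mul hc γ γ'
  have h1 := isKum_levelPull N p hc
  rw [h0] at h1
  have hres : resG0 N p c = 0 := Fermat.Agent.S29.H718.isKum_zero_right (N * p) n h1
  have hc0 : c = 0 := by
    funext γ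
    exact eq_zero_of_forall_mem_Gamma0_mul hp (zmod_eq_zero_of_nsmul hnp) c hadd
      (fun γ hγ => congrFun hres ⟨(γ : SL(2, ℤ)), hγ⟩) γ
  obtain ⟨c₀, hc₀⟩ := Fermat.Agent.S30.H810.exists_isKum_of_torsion N n
    (x := (0 : JZero N)) (smul_zero _)
  have hc₀0 : c₀ = 0 := Fermat.Agent.S29.H718.isKum_zero_right N n hc₀
  rw [hc0] at hc
  rw [hc₀0] at hc₀
  exact Fermat.Agent.S29.M4b.H89.isKum_unique N n hc hc₀

open Fermat.Agent.S19 in
/-- The pull-back on `ℓ^k`-torsion. -/
def torsPull (ℓ k : ℕ) : Tors N ℓ k →+ Tors (N * p) ℓ k :=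
  (((levelPull N p).toIntLinearMap).restrict
    (p := Submodule.torsionBy ℤ (JZero N) ((ℓ : ℤ) ^ k))
    (q := Submodule.torsionBy ℤ (JZero (N * p)) ((ℓ : ℤ) ^ k)) (fun x hx => by
      rw [Submodule.mem_torsionBy_iff] at hx ⊢
      rw [← map_smul, hx, map_zero])).toAddMonoidHom

open Fermat.Agent.S19 in
theorem coe_torsPull (ℓ k : ℕ) (x : Tors N ℓ k) :
    ((torsPull N p ℓ k x : Tors (N * p) ℓ k) : JZero (N * p)) = levelPull N p (x : JZero N) :=
  rfl

open Fermat.Agent.S19 in
theorem torsPull_injective (hp : p.Prime) (ℓ k : ℕ) (hℓ : ℓ.Prime) (hℓp : ℓ ≠ p) :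
    Function.Injective (torsPull N p ℓ k) := by
  rw [injective_iff_map_eq_zero]
  intro x hx
  have h0 : levelPull N p (x : JZero N) = 0 := by
    rw [← coe_torsPull, hx]; rfl
  haveI : NeZero (ℓ ^ k) := ⟨pow_ne_zero k hℓ.ne_zero⟩
  have hcop : Nat.Coprime p (ℓ ^ k) :=
    Nat.Coprime.pow_right k ((Nat.coprime_primes hp hℓ).mpr (Ne.symm hℓp))
  have hx' : ((ℓ ^ k : ℕ) : ℤ) • (x : JZero N) = 0 := by
    have := (Submodule.mem_torsionBy_iff _ _).mp x.2
    push_cast
    exact this
  exact Subtype.ext (eq_zero_of_levelPull_eq_zero N p hp (ℓ ^ k) hcop hx' h0)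

open Fermat.Agent.S19 in
theorem torsPull_torsAct (ℓ k : ℕ) (σ : GalQ) (x : Tors N ℓ k) :
    torsPull N p ℓ k (torsAct N ℓ k σ x) = torsAct (N * p) ℓ k σ (torsPull N p ℓ k x) := by
  apply Subtype.ext
  rw [coe_torsPull, coe_torsAct, coe_torsAct, coe_torsPull]
  exact levelPull_smul N p σ (x : JZero N)

open Fermat.Agent.S19 in
/-- **LEVEL node of A3** (frozen interface `Fermat.Agent.S19.LevelStatement`). -/
theorem levelStatement : Fermat.Agent.S19.LevelStatement := by
  intro N _ ℓ hℓ hℓN k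
  have hprime : ℓ.Prime := hℓ.out
  by_cases h5 : 5 ≤ ℓ
  · exact ⟨N, inferInstance, k, hℓN, Or.inl h5, AddMonoidHom.id _, Function.injective_id,
      fun _ _ => rfl⟩
  · -- `ℓ = 2` or `ℓ = 3`
    have hℓ23 : ℓ = 2 ∨ ℓ = 3 := by
      have h2 := hprime.two_le
      have hlt : ℓ < 5 := not_le.mp h5
      interval_cases ℓ
      · exact Or.inl rfl
      · exact Or.inr rfl
      · exact absurd hprime (by decide)
    rcases hℓ23 with rfl | rfl
    · -- `ℓ = 2`, auxiliary prime `3`
      by_cases h3 : 3 ∣ N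
      · exact ⟨N, inferInstance, k, hℓN, Or.inr (Or.inr ⟨rfl, h3⟩), AddMonoidHom.id _,
          Function.injective_id, fun _ _ => rfl⟩
      · refine ⟨N * 3, inferInstance, k, ?_, Or.inr (Or.inr ⟨rfl, dvd_mul_left 3 N⟩),
          torsPull N 3 2 k, torsPull_injective N 3 Nat.prime_three 2 k Nat.prime_two (by decide),
          fun σ x => torsPull_torsAct N 3 2 k σ x⟩
        intro h
        rcases (Nat.Prime.dvd_mul Nat.prime_two).mp h with h | h
        · exact hℓN h
        · exact absurd h (by decide)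
    · -- `ℓ = 3`, auxiliary prime `2`
      by_cases h2 : 2 ∣ N
      · exact ⟨N, inferInstance, k, hℓN, Or.inr (Or.inl ⟨rfl, h2⟩), AddMonoidHom.id _,
          Function.injective_id, fun _ _ => rfl⟩
      · refine ⟨N * 2, inferInstance, k, ?_, Or.inr (Or.inl ⟨rfl, dvd_mul_left 2 N⟩),
          torsPull N 2 3 k, torsPull_injective N 2 Nat.prime_two 3 k Nat.prime_three (by decide),
          fun σ x => torsPull_torsAct N 2 3 k σ x⟩
        intro h
        rcases (Nat.Prime.dvd_mul Nat.prime_three).mp h with h | h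
        · exact hℓN h
        · exact absurd h (by decide)

end Fermat.Agent.A3.H319
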