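import Fermat.Agent.A3.H319.Embed
import Fermat.Agent.S24.Mod.H368Degree

/-!
# A3 / FIN (helper319), piece (C1): completeness of the field of modular functions of `Γ₀(N)`

`modFunField (Gamma0 N) = ℂ(j)(j_N)` inside `MerH`: every `Γ₀(N)`-invariant quotient of
holomorphic functions on `ℍ` that is meromorphic at all cusps is a rational function (over `ℂ`)
of `j(τ)` and `j(Nτ)`.

Proof: `[modFunField Γ₀(N) : ℂ(j)] ≤ index` (S24 / H624 `finrank_modFunField_le`), and the
`index` many translates of `j_N` by coset representatives are pairwise distinct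
(`Jd_distinct`), so `[ℂ(j)(j_N) : ℂ(j)] ≥ index` (Artin, S24 / H368).
-/

set_option autoImplicit false

noncomputable section

open UpperHalfPlane ModularCurve Module
open scoped MatrixGroups

namespace Fermat.Agent.A3.H319

open Fermat.Agent.S24 Fermat.Agent.S24.H624 Fermat.Agent.S24.H997

variable (N : ℕ) [NeZero N]

/-- `j_N = (τ ↦ j(Nτ))` as an element of `MerH`. -/
def JN : MerH := JMer N N dvd_rfl

theorem JN_mem_modFunField : JN N ∈ modFunField (CongruenceSubgroup.Gamma0 N) :=
  JMer_mem_modFunField N N dvd_rfl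

/-- The field `ℂ(j, j_N)`. -/
def ratJN : IntermediateField ratJ MerH := IntermediateField.adjoin ratJ {JN N}

theorem ratJN_le : ratJN N ≤ modFunField (CongruenceSubgroup.Gamma0 N) := by
  rw [ratJN, IntermediateField.adjoin_le_iff]
  rintro _ rfl
  exact JN_mem_modFunField N

theorem JN_mem_ratJN : JN N ∈ ratJN N :=
  IntermediateField.subset_adjoin ratJ _ rfl

/-- Two translates of `j_N` agree iff the cosets agree. -/
theorem mem_Gamma0_of_smul_JN_eq {γ δ : SL(2, ℤ)} (h : γ • JN N = δ • JN N) :
    γ⁻¹ * δ ∈ CongruenceSubgroup.Gamma0 N := by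
  have h1 : (δ⁻¹ * γ) • JN N = JN N := by
    rw [mul_smul, h, inv_smul_smul]
  rw [JN, JMer, smul_algebraMap_MerH] at h1
  have h2 := IsFractionRing.injective holoRing MerH h1
  apply Jd_distinct N
  intro τ
  have h3 := congrArg (fun f : holoRing => (f : ℍ → ℂ) τ) h2
  simp only [smul_holoRing_apply] at h3
  have h4 : (δ⁻¹ * γ)⁻¹ = γ⁻¹ * δ := by group
  rw [h4] at h3
  exact h3

/-- The translate of an element of `ℂ(j, j_N)` by a coset representative, as a ring hom. -/
def translateHom (x : SL(2, ℤ) ⧸ CongruenceSubgroup.Gamma0 N) : ratJN N →+* MerH :=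
  ((merSL (Quotient.out x) : MerH ≃+* MerH) : MerH →+* MerH).comp (algebraMap (ratJN N) MerH)

theorem translateHom_apply (x : SL(2, ℤ) ⧸ CongruenceSubgroup.Gamma0 N) (f : ratJN N) :
    translateHom N x f = Quotient.out x • (f : MerH) := rfl

theorem translateHom_injective : Function.Injective (translateHom N) := by
  intro x y hxy
  have h1 := congrArg (fun f : ratJN N →+* MerH => f ⟨JN N, JN_mem_ratJN N⟩) hxy
  simp only [translateHom_apply] at h1
  have h3 := mem_Gamma0_of_smul_JN_eq N h1
  have h4 : ((Quotient.out x : SL(2, ℤ)) : SL(2, ℤ) ⧸ CongruenceSubgroup.Gamma0 N)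
      = ((Quotient.out y : SL(2, ℤ)) : SL(2, ℤ) ⧸ CongruenceSubgroup.Gamma0 N) :=
    QuotientGroup.eq.mpr h3
  have hx : ((Quotient.out x : SL(2, ℤ)) : SL(2, ℤ) ⧸ CongruenceSubgroup.Gamma0 N) = x :=
    Quotient.out_eq' x
  have hy : ((Quotient.out y : SL(2, ℤ)) : SL(2, ℤ) ⧸ CongruenceSubgroup.Gamma0 N) = y :=
    Quotient.out_eq' y
  rw [← hx, ← hy, h4]

theorem translateHom_algebraMap (x : SL(2, ℤ) ⧸ CongruenceSubgroup.Gamma0 N) (e : ratJ) :
    translateHom N x (algebraMap ratJ (ratJN N) e) = algebraMap ratJ MerH e := by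
  have h1 : algebraMap (ratJN N) MerH (algebraMap ratJ (ratJN N) e) = algebraMap ratJ MerH e :=
    (IsScalarTower.algebraMap_apply ratJ (ratJN N) MerH e).symm
  have h2 : algebraMap ratJ MerH e = (e : MerH) := IntermediateField.algebraMap_apply ratJ e
  have h3 : Quotient.out x • (e : MerH) = (e : MerH) := smul_of_mem_ratJ _ e.2
  rw [translateHom, RingHom.comp_apply, h1, h2, RingHom.coe_coe, merSL_apply, h3]

theorem index_le_finrank_ratJN [FiniteDimensional ratJ (ratJN N)] :
    (CongruenceSubgroup.Gamma0 N).index ≤ finrank ratJ (ratJN N) :=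
  H368.card_le_finrank_of_embeddings (translateHom N) (translateHom_injective N)
    (algebraMap ratJ MerH) (translateHom_algebraMap N)

/-- **(C1) Completeness.** The field of modular functions for `Γ₀(N)` is `ℂ(j, j_N)`. -/
theorem modFunField_Gamma0_eq : modFunField (CongruenceSubgroup.Gamma0 N) = ratJN N := by
  obtain ⟨hfd, hle⟩ := finrank_modFunField_le (CongruenceSubgroup.Gamma0 N)
  haveI := hfd
  haveI : FiniteDimensional ratJ (ratJN N) :=
    FiniteDimensional.of_injective (IntermediateField.inclusion (ratJN_le N)).toLinearMap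
      (IntermediateField.inclusion_injective (ratJN_le N))
  have h1 := index_le_finrank_ratJN N
  exact (IntermediateField.eq_of_le_of_finrank_le (ratJN_le N) (hle.trans h1)).symm


/-- Every `Γ₀(N)`-invariant element of `MerH` meromorphic at all cusps lies in `ℂ(j, j_N)`. -/
theorem mem_ratJN_of_invariant {F : MerH}
    (hinv : ∀ γ ∈ CongruenceSubgroup.Gamma0 N, γ • F = F) (hcusp : IsMeroAtCusps F) :
    F ∈ ratJN N := by
  rw [← modFunField_Gamma0_eq]
  exact mem_modFunField.mpr ⟨hinv, hcusp⟩

end Fermat.Agent.A3.H319
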