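import Fermat.Agent.S24.Mod
import Fermat.Agent.S24.Mod.H564Deg
import Fermat.Agent.S24.H624.ModField

/-!
# A3 / FIN (helper319): the embedding of the function field `FF N = ℚ̄(j(q^d) : d ∣ N)` into the
field `MerH` of meromorphic functions on `ℍ` (S24 / H624), with image in the field of modular
functions `modFunField (Gamma0 N)`.

* `merEmb N : FF N →+* MerH`, `merEmb_inclRN`, `merEmb_algebraMap`, `merEmb_jF`, `merEmb_jR`;
* `JM d` : the function `τ ↦ j(dτ)` as an element of `MerH`;
* `smul_merEmb` : `Γ₀(N)`-invariance;  `isMeroAtCusps_merEmb`;  `merEmb_mem_modFunField`.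
-/

set_option autoImplicit false

noncomputable section

open UpperHalfPlane ModularCurve
open scoped MatrixGroups

namespace Fermat.Agent.A3.H319

open Fermat.Agent.S24 Fermat.Agent.S24.H624 Fermat.Agent.S24.H997

variable (N : ℕ) [NeZero N]

/-- The inclusion of the S24 ring `holN N` into the ring of holomorphic functions. -/
def holNIncl : (holBase N).Hol →+* holoRing where
  toFun h := ⟨h.1, h.2.1⟩
  map_one' := rfl
  map_mul' _ _ := rfl
  map_zero' := rfl
  map_add' _ _ := rfl

theorem holNIncl_apply (h : (holBase N).Hol) (τ : ℍ) :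
    ((holNIncl N h : holoRing) : ℍ → ℂ) τ = (h : ℍ → ℂ) τ := rfl

theorem holNIncl_injective : Function.Injective (holNIncl N) := by
  intro x y h
  apply Subtype.ext
  exact congrArg (fun f : holoRing => (f : ℍ → ℂ)) h

/-- `R_N → MerH`. -/
def merEmbR : RN N →+* MerH :=
  (algebraMap holoRing MerH).comp ((holNIncl N).comp (holBase N).bridge)

theorem merEmbR_injective : Function.Injective (merEmbR N) :=
  (IsFractionRing.injective holoRing MerH).comp
    ((holNIncl_injective N).comp (holBase N).bridge_injective)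

/-- The embedding of the function field of `X₀(N)` over `ℚ̄` into `MerH`. -/
def merEmb : FF N →+* MerH := liftF (merEmbR N) (merEmbR_injective N)

theorem merEmb_inclRN (r : RN N) :
    merEmb N (inclRN N r) = algebraMap holoRing MerH (holNIncl N ((holBase N).bridge r)) :=
  liftF_inclRN _ _ r

theorem merEmb_injective : Function.Injective (merEmb N) := (merEmb N).injective

theorem merEmb_div (r t : RN N) :
    merEmb N (inclRN N r / inclRN N t)
      = algebraMap holoRing MerH (holNIncl N ((holBase N).bridge r))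
        / algebraMap holoRing MerH (holNIncl N ((holBase N).bridge t)) := by
  rw [map_div₀, merEmb_inclRN, merEmb_inclRN]

theorem merEmb_algebraMap (c : Kbar) :
    merEmb N (algebraMap Kbar (FF N) c) = algebraMap ℂ MerH (ιK c) := by
  have h : algebraMap Kbar (FF N) c = inclRN N (algebraMap Kbar (RN N) c) :=
    ((inclRN N).commutes c).symm
  rw [h, merEmb_inclRN, HolBase.bridge_algebraMap]
  rfl

/-- The function `τ ↦ j(dτ)`, `d ∣ N`, as an element of `MerH`. -/
def JMer (d : ℕ) (hd : d ∣ N) : MerH :=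
  algebraMap holoRing MerH (holNIncl N ((holBase N).JH d hd))

theorem merEmb_jR (d : ℕ) [NeZero d] (hd : d ∣ N) :
    merEmb N (inclRN N (jR N d hd)) = JMer N d hd := by
  rw [merEmb_inclRN, HolBase.bridge_jR]
  rfl

theorem holNIncl_JH_one : holNIncl N ((holBase N).JH 1 (one_dvd N)) = jH := by
  apply Subtype.ext
  funext τ
  show Jd 1 τ = H108.jFun τ
  rw [Jd_one]
  rfl

theorem JMer_one : JMer N 1 (one_dvd N) = jM := by
  rw [JMer, holNIncl_JH_one]
  rfl

theorem merEmb_jF : merEmb N (jF N) = jM := by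
  rw [← inclRN_jR_one, merEmb_jR, JMer_one]

/-! ### invariance under `Γ₀(N)` -/

theorem smul_holNIncl_bridge {γ : SL(2, ℤ)} (hγ : γ ∈ CongruenceSubgroup.Gamma0 N) (r : RN N) :
    γ • holNIncl N ((holBase N).bridge r) = holNIncl N ((holBase N).bridge r) := by
  apply Subtype.ext
  funext τ
  rw [smul_holoRing_apply]
  have h := (holBase N).compH_bridge_of_mem (inv_mem hγ) r
  have h2 := congrArg (fun f : (holBase N).Hol => (f : ℍ → ℂ) τ) h
  exact h2

theorem smul_merEmb {γ : SL(2, ℤ)} (hγ : γ ∈ CongruenceSubgroup.Gamma0 N) (x : FF N) :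
    γ • merEmb N x = merEmb N x := by
  obtain ⟨r, t, -, rfl⟩ := exists_div_inclRN N x
  rw [merEmb_div, smul_div₀', smul_algebraMap_MerH, smul_algebraMap_MerH,
    smul_holNIncl_bridge N hγ, smul_holNIncl_bridge N hγ]

/-! ### meromorphy at the cusps -/

theorem isMeroAtCusps_holNIncl (h : (holBase N).Hol) :
    IsMeroAtCusps (algebraMap holoRing MerH (holNIncl N h)) := by
  intro γ
  rw [smul_algebraMap_MerH]
  have hmem : compSL γ⁻¹ (h : ℍ → ℂ) ∈ expRing N := h.2.2 γ⁻¹
  obtain ⟨φ, hφ⟩ := hmem
  obtain ⟨m, C, A, hgr⟩ := H564.exists_growth_of_infExp hφ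
  refine IsMeroAtInfty.of_holo_bounded (m := m) (Y := A) (C := C) fun τ hτ => ?_
  have := hgr τ hτ
  rw [smul_holoRing_apply]
  exact this

theorem merEmb_inclRN_mem_modFunField (r : RN N) :
    merEmb N (inclRN N r) ∈ modFunField (CongruenceSubgroup.Gamma0 N) := by
  rw [mem_modFunField]
  refine ⟨fun γ hγ => smul_merEmb N hγ _, ?_⟩
  rw [merEmb_inclRN]
  exact isMeroAtCusps_holNIncl N _

theorem merEmb_mem_modFunField (x : FF N) :
    merEmb N x ∈ modFunField (CongruenceSubgroup.Gamma0 N) := by
  obtain ⟨r, t, -, rfl⟩ := exists_div_inclRN N x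
  rw [map_div₀]
  exact div_mem (merEmb_inclRN_mem_modFunField N r) (merEmb_inclRN_mem_modFunField N t)

theorem isMeroAtCusps_merEmb (x : FF N) : IsMeroAtCusps (merEmb N x) :=
  ((mem_modFunField).mp (merEmb_mem_modFunField N x)).2

theorem JMer_mem_modFunField (d : ℕ) (hd : d ∣ N) :
    JMer N d hd ∈ modFunField (CongruenceSubgroup.Gamma0 N) := by
  haveI : NeZero d := ⟨(Nat.pos_of_dvd_of_pos hd (Nat.pos_of_ne_zero (NeZero.ne N))).ne'⟩
  rw [← merEmb_jR]
  exact merEmb_mem_modFunField N _

end Fermat.Agent.A3.H319
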