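import Fermat.Agent.S19.Defs
import Fermat.Agent.S30.Fin.Count
import Fermat.Agent.S30.H810.Onto
import Fermat.Agent.S29.M4b.H89.K4Uniq

/-!
# A3 / FIN (helper319): the torsion of `J₀(N)(ℚ̄)` is finite — `S19.FinStatement`

Glue of three results on main:

* ONTO   `S30.H810.exists_isKum_of_torsion` (helper810): every `m`-torsion class is the Kummer
  class of some character `c : Γ₀(N) → ℤ/m`;
* UNIQ   `S29.M4b.H89.isKum_unique` (helper89): the Kummer class of a character is unique;
* COUNT  `S30.Fin.finite_torsion_of` (helper49): ONTO + UNIQ + `Γ₀(N)` finitely generated ⟹ finite.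

Output: `finite_torsionBy` (any `m ≠ 0`), `finite_tors`, and `finStatement : S19.FinStatement`
(the FIN block of the frozen A3 interface `Fermat/Agent/S19/Defs.lean`).
-/

set_option autoImplicit false

noncomputable section

namespace Fermat.Agent.A3.H319

open ModularCurve

/-- The `m`-torsion of `J₀(N)(ℚ̄)` is a finite set, `m ≠ 0`. -/
theorem finite_setOf_zsmul_eq_zero (N : ℕ) [NeZero N] (m : ℕ) [NeZero m] :
    {x : JZero N | (m : ℤ) • x = 0}.Finite :=
  Fermat.Agent.S30.Fin.finite_torsion_of N m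
    (fun _ hx => Fermat.Agent.S30.H810.exists_isKum_of_torsion N m hx)
    (fun _ _ _ h h' => Fermat.Agent.S29.M4b.H89.isKum_unique N m h h')

/-- `J₀(N)(ℚ̄)[m]` is finite for every integer `m ≠ 0`. -/
theorem finite_torsionBy (N : ℕ) [NeZero N] (m : ℤ) (hm : m ≠ 0) :
    Finite (Submodule.torsionBy ℤ (JZero N) m) := by
  have : NeZero m.natAbs := ⟨Int.natAbs_ne_zero.mpr hm⟩
  have h := finite_setOf_zsmul_eq_zero N m.natAbs
  have hsub : ((Submodule.torsionBy ℤ (JZero N) m : Submodule ℤ (JZero N)) : Set (JZero N)) ⊆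
      {x : JZero N | ((m.natAbs : ℕ) : ℤ) • x = 0} := by
    intro x hx
    have hx' : m • x = 0 := (Submodule.mem_torsionBy_iff _ _).mp hx
    show ((m.natAbs : ℕ) : ℤ) • x = 0
    rcases Int.natAbs_eq m with h1 | h1
    · rw [← h1]; exact hx'
    · have h2 : ((m.natAbs : ℕ) : ℤ) = -m := by omega
      rw [h2, neg_smul, hx', neg_zero]
  exact (h.subset hsub).to_subtype

/-- `J₀(N)(ℚ̄)[ℓ^k]` is finite (no hypothesis on `ℓ` beyond `ℓ ≠ 0`). -/
theorem finite_tors (N : ℕ) [NeZero N] (ℓ : ℕ) (hℓ : ℓ ≠ 0) (k : ℕ) :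
    Finite (Fermat.Agent.S19.Tors N ℓ k) :=
  finite_torsionBy N ((ℓ : ℤ) ^ k) (pow_ne_zero k (Int.natCast_ne_zero.mpr hℓ))

/-- **FIN block of A3** (frozen interface `Fermat.Agent.S19.FinStatement`). -/
theorem finStatement : Fermat.Agent.S19.FinStatement := by
  intro N _ ℓ hℓ k
  exact finite_tors N ℓ hℓ.out.ne_zero k

end Fermat.Agent.A3.H319
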