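import Fermat.Agent.S29.H455.KummerCorr
import Fermat.Agent.S29.H571.Equivariant

/-!
# A3 / LEVEL (helper319), part 1: the pull-back (conorm) on `Pic⁰` along an algebra map

Generic (Prelude language).  For `φ : F →ₐ[K] F'` integral with the fundamental identity:

* `pic0Pull φ hφ hFI : Pic0 K F →+ Pic0 K F'`, `pic0Pull_mk`;
* `pic0Pull_smul` : it commutes with semilinear automorphisms intertwined by `φ`;
* `isKummerClass_pic0Pull` : it sends the Kummer class of `f` to the Kummer class of `φ f`.
-/

set_option autoImplicit false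
set_option linter.style.haveILetI false

noncomputable section

namespace Fermat.Agent.A3.H319

open AlgebraicCurve Fermat.Agent.S29

variable {K F F' : Type*} [Field K] [Field F] [Field F'] [Algebra K F] [Algebra K F']
variable [HasPrincipalDivisors K F']
variable (φ : F →ₐ[K] F') (hφ : φ.toRingHom.IsIntegral)
variable (hFI : FundamentalIdentityAlong K φ hφ)

/-- Pull-back of degree-zero divisors along `φ`. -/
def degZeroPull :
    Divisor.degZero (K := K) (F := F) →+ Divisor.degZero (K := K) (F := F') :=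
  ((Divisor.pullbackAlong φ hφ).domRestrict (Divisor.degZero (K := K) (F := F))).codRestrict _
    (fun D => Divisor.pullbackAlong_mem_degZero φ hφ hFI D.2)

@[simp]
theorem coe_degZeroPull (D : Divisor.degZero (K := K) (F := F)) :
    (degZeroPull φ hφ hFI D : Divisor K F') = Divisor.pullbackAlong φ hφ (D : Divisor K F) :=
  rfl

/-- The pull-back (conorm) `Pic⁰(F) → Pic⁰(F')` along `φ`. -/
def pic0Pull : Pic0 K F →+ Pic0 K F' :=
  QuotientAddGroup.map _ _ (degZeroPull φ hφ hFI) (by
    rintro ⟨D, hD0⟩ hD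
    simp only [AddSubgroup.mem_addSubgroupOf] at hD ⊢
    exact Divisor.isPrincipal_pullbackAlong φ hφ hD)

theorem pic0Pull_mk (D : Divisor.degZero (K := K) (F := F)) :
    pic0Pull φ hφ hFI (Pic0.mk D) = Pic0.mk (degZeroPull φ hφ hFI D) :=
  rfl

/-- The pull-back commutes with semilinear automorphisms intertwined by `φ`. -/
theorem pic0Pull_smul {g : SemilinearAut K F} {g' : SemilinearAut K F'}
    (h : SemilinearAut.IntertwinesAlong (φ : F →+* F') g g') (x : Pic0 K F) :
    pic0Pull φ hφ hFI (g • x) = g' • pic0Pull φ hφ hFI x := by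
  obtain ⟨D, rfl⟩ := Pic0.mk_surjective x
  rw [SemilinearAut.pic0_smul_mk, pic0Pull_mk, pic0Pull_mk, SemilinearAut.pic0_smul_mk]
  refine congrArg Pic0.mk (Subtype.ext ?_)
  rw [coe_degZeroPull, SemilinearAut.coe_degZeroSMulHom, SemilinearAut.coe_degZeroSMulHom,
    coe_degZeroPull]
  exact H571.pullbackAlong_smul φ hφ h (D : Divisor K F)

/-- The pull-back sends the Kummer class of `f` to the Kummer class of `φ f`. -/
theorem isKummerClass_pic0Pull {n : ℤ} {f : F} {x : Pic0 K F}
    (hx : H455.IsKummerClass n f x) :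
    H455.IsKummerClass n (φ f) (pic0Pull φ hφ hFI x) := by
  obtain ⟨hf, D, rfl, hD⟩ := hx
  refine ⟨(map_ne_zero φ).mpr hf, degZeroPull φ hφ hFI D, (pic0Pull_mk φ hφ hFI D).symm,
    fun w => ?_⟩
  rw [coe_degZeroPull, Divisor.pullbackAlong_apply, Place.ord_restrictAlong φ hφ w f,
    ← hD (w.restrictAlong φ hφ)]
  ring

end Fermat.Agent.A3.H319
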