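import Fermat.Agent.S24.H624.ModField

/-!
# A3 / FIN (helper319), piece (C0): `n`-th roots stay meromorphic at the cusps

If `G ∈ MerH` (S24 / H624) and `G ^ n` is meromorphic at `i∞` (resp. at all cusps), `n > 0`, then
so is `G`.
-/

set_option autoImplicit false

noncomputable section

open UpperHalfPlane Complex
open scoped MatrixGroups Real

namespace Fermat.Agent.A3.H319

open Fermat.Agent.S24.H624

/-- `x ^ n ≤ B` with `0 ≤ x`, `0 < n` implies `x ≤ max 1 B`. -/
theorem le_max_one_of_pow_le {x B : ℝ} {n : ℕ} (hn : 0 < n) (h : x ^ n ≤ B) :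
    x ≤ max 1 B := by
  by_cases h1 : x ≤ 1
  · exact h1.trans (le_max_left _ _)
  · have h1' : 1 < x := not_le.mp h1
    have h2 : x ≤ x ^ n := le_self_pow₀ h1'.le hn.ne'
    exact (h2.trans h).trans (le_max_right _ _)

/-- **(C0) at `i∞`.** -/
theorem isMeroAtInfty_of_pow {G : MerH} {n : ℕ} (hn : 0 < n) (h : IsMeroAtInfty (G ^ n)) :
    IsMeroAtInfty G := by
  by_cases hG : G = 0
  · subst hG
    exact isMeroAtInfty_zero
  obtain ⟨a, b, m, Y, C, hab, hbd⟩ := h
  -- `b ≠ 0` unless the half plane `Y ≤ im τ` is empty, which it is not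
  have hb0 : b ≠ 0 := by
    rintro rfl
    let τ₀ : ℍ := ⟨⟨0, max Y 1⟩, by
      show (0 : ℝ) < max Y 1
      exact lt_of_lt_of_le one_pos (le_max_right _ _)⟩
    have hτ₀ : Y ≤ τ₀.im := le_max_left _ _
    exact (hbd τ₀ hτ₀).1 rfl
  have hbK : algebraMap holoRing MerH b ≠ 0 := algebraMap_MerH_ne_zero hb0
  have hGn : G ^ n ≠ 0 := pow_ne_zero _ hG
  have haK : algebraMap holoRing MerH a ≠ 0 := by
    rw [← hab]
    exact mul_ne_zero hGn hbK
  -- `G * b` has no poles
  have hord : ∀ τ : ℍ, 0 ≤ ordM τ (G * algebraMap holoRing MerH b) := by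
    intro τ
    rw [ordM_mul τ hG hbK]
    have h1 : ordM τ (G ^ n * algebraMap holoRing MerH b) = ordM τ (algebraMap holoRing MerH a) := by
      rw [hab]
    rw [ordM_mul τ hGn hbK, ordM_pow] at h1
    have h2 := ordM_algebraMap_nonneg τ a
    have h3 := ordM_algebraMap_nonneg τ b
    have hn' : (1 : ℤ) ≤ n := by exact_mod_cast hn
    by_contra hneg
    have hneg' := not_le.mp hneg
    have h4 : ordM τ G < 0 := by linarith
    have h5 : (n : ℤ) * ordM τ G ≤ ordM τ G := by nlinarith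
    linarith
  obtain ⟨f, hf⟩ := exists_holo_of_ordM_nonneg _ hord
  -- `f ^ n = a * b ^ (n - 1)` in `holoRing`
  have hpow : f ^ n * b = a * b ^ n := by
    apply IsFractionRing.injective holoRing MerH
    rw [map_mul, map_pow, map_mul, map_pow, hf, mul_pow, ← hab]
    ring
  refine ⟨f, b, m, Y, max 1 C, hf.symm, fun τ hτ => ?_⟩
  obtain ⟨hbτ, hbound⟩ := hbd τ hτ
  refine ⟨hbτ, ?_⟩
  have hpt : (f : ℍ → ℂ) τ ^ n * (b : ℍ → ℂ) τ = (a : ℍ → ℂ) τ * (b : ℍ → ℂ) τ ^ n := by
    have := congrArg (fun g : holoRing => (g : ℍ → ℂ) τ) hpow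
    exact this
  have hq : ((f : ℍ → ℂ) τ / (b : ℍ → ℂ) τ) ^ n = (a : ℍ → ℂ) τ / (b : ℍ → ℂ) τ := by
    rw [div_pow, div_eq_div_iff (pow_ne_zero _ hbτ) hbτ, hpt]
  have hnorm : ‖(f : ℍ → ℂ) τ / (b : ℍ → ℂ) τ‖ ^ n ≤ C * Real.exp (2 * π * m * τ.im) := by
    rw [← norm_pow, hq]
    exact hbound
  have hexp : (1 : ℝ) ≤ Real.exp (2 * π * m * τ.im) := by
    rw [← Real.exp_zero]
    apply Real.exp_le_exp.mpr
    have := τ.im_pos
    have := Real.pi_pos
    positivity
  have h1 := le_max_one_of_pow_le hn hnorm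
  refine h1.trans ?_
  rcases le_total 1 (C * Real.exp (2 * π * m * τ.im)) with hc | hc
  · rw [max_eq_right hc]
    exact mul_le_mul_of_nonneg_right (le_max_right _ _) (Real.exp_pos _).le
  · rw [max_eq_left hc]
    calc (1 : ℝ) ≤ 1 * Real.exp (2 * π * m * τ.im) := by rw [one_mul]; exact hexp
      _ ≤ max 1 C * Real.exp (2 * π * m * τ.im) :=
        mul_le_mul_of_nonneg_right (le_max_left _ _) (Real.exp_pos _).le

/-- **(C0).** An `n`-th root of a function meromorphic at all cusps is meromorphic at all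
cusps. -/
theorem isMeroAtCusps_of_pow {G : MerH} {n : ℕ} (hn : 0 < n) (h : IsMeroAtCusps (G ^ n)) :
    IsMeroAtCusps G := by
  intro γ
  apply isMeroAtInfty_of_pow hn
  rw [← smul_pow']
  exact h γ

end Fermat.Agent.A3.H319
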